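import Fermat.Agent.QuaternionLevel.Elliptic
import Mathlib.NumberTheory.LegendreSymbol.QuadraticReciprocity

/-!
# The genus of level `p`

The curve has area `2 π (p + 1) / 3` and genus `g` with `6 g = p - 3 (-4 / p) - 4 (-3 / p)`.
-/

set_option autoImplicit false
set_option linter.unusedSectionVars false
set_option linter.style.haveILetI false

noncomputable section

open Set Filter Topology Matrix
open UpperHalfPlane hiding I
open scoped MatrixGroups Real
open FA.Horocycle FA.QuaternionHecke FA.QuaternionApprox FA.CocompactForms FA.CocompactDegree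
open FA.CocompactGaussBonnet FA.QuaternionCurve

namespace FA.QuaternionLevel

variable (p : ℕ) [hp : Fact p.Prime]

theorem legendre_neg_four (hp5 : 5 ≤ p) : legendreSym p (-4) = legendreSym p (-1) := by
  rw [show (-4 : ℤ) = -1 * 2 ^ 2 by norm_num, legendreSym.mul, legendreSym.sq_one' p ?_, mul_one]
  simpa using two_ne_zero_mod p hp5

theorem legendre_neg_three (hp5 : 5 ≤ p) : legendreSym p (-3) = legendreSym 3 p := by
  haveI : Fact (Nat.Prime 3) := ⟨Nat.prime_three⟩
  have h := legendreSym.quadratic_reciprocity' (p := 3) (q := p) (by norm_num) (by omega)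
  rw [show (-3 : ℤ) = -1 * 3 by norm_num, legendreSym.mul, legendreSym.at_neg_one (by omega),
    ZMod.χ₄_eq_neg_one_pow (hp.out.eq_two_or_odd.resolve_left (by omega)), show (3 : ℤ) =
      ((3 : ℕ) : ℤ) by norm_num, h, ← mul_assoc, ← pow_add,
    show p / 2 + 3 / 2 * (p / 2) = p / 2 + p / 2 by omega, Even.neg_one_pow ⟨p / 2, rfl⟩, one_mul]

/-- **No elliptic points.** -/
theorem legendre_eq_neg_one (hp5 : 5 ≤ p) :
    (p % 4 = 3 → legendreSym p (-4) = -1) ∧ (p % 3 = 2 → legendreSym p (-3) = -1) := by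
  refine ⟨fun h => ?_, fun h => ?_⟩
  · rw [legendre_neg_four p hp5, legendreSym.at_neg_one (by omega),
      ZMod.χ₄_nat_three_mod_four h]
  · haveI : Fact (Nat.Prime 3) := ⟨Nat.prime_three⟩
    rw [legendre_neg_three p hp5, legendreSym.eq_neg_one_iff', ← ZMod.natCast_mod, h]
    decide

variable (hp5 : 5 ≤ p)

theorem trivCard_eichler : trivCard (eichler p hp5) = 2 :=
  CocompactHurwitz.trivCard_eq.1 (neg_one_mem_eichler p hp5)

theorem area_eichler : area (eichler p hp5) = 2 * π * ((p : ℝ) + 1) / 3 := by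
  have h := CocompactHurwitz.area_mul (eichler_le p hp5)
  rw [trivCard_orderUnits, trivCard_eichler, relIndex_eichler, area_eq_dimension.1] at h
  push_cast at h
  linarith

theorem ellipticDefect_eichler : ellipticDefect (eichler p hp5) =
    1 + (legendreSym p (-4) : ℝ) + 4 / 3 * (1 + (legendreSym p (-3) : ℝ)) := by
  rw [ellipticDefect, sum_elliptic p hp5 fun e => 1 - 1 / (e : ℝ), Fin.sum_univ_four]
  simp [eOf, trOf]
  norm_num
  ring

theorem floorSum_eichler (m : ℕ) : (floorSum (eichler p hp5) m : ℤ) =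
    (1 + legendreSym p (-4)) * (2 * ((m / 2 : ℕ) : ℤ)) +
      (1 + legendreSym p (-3)) * (2 * ((2 * m / 3 : ℕ) : ℤ)) := by
  have h := sum_elliptic p hp5 fun e => ((m * (e - 1) / e : ℕ) : ℝ)
  rw [← Nat.cast_sum, Fin.sum_univ_four] at h
  simp [eOf, trOf, mul_comm m 2] at h
  rw [← Nat.cast_sum, ← floorSum] at h
  refine Int.cast_injective (α := ℝ) ?_
  simp only [Int.cast_add, Int.cast_mul, Int.cast_one, Int.cast_ofNat, Int.cast_natCast]
  linear_combination h

/-- **The genus of level `p`.** -/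
theorem eichler_genus_dimension : ∃ g : ℕ,
    (6 * (g : ℤ) = p - 3 * legendreSym p (-4) - 4 * legendreSym p (-3) ∧
      area (eichler p hp5) = 2 * π * (2 * (g : ℝ) - 2 + ellipticDefect (eichler p hp5))) ∧
    ∀ᶠ m : ℕ in atTop,
      (Module.finrank ℂ (forms (eichler p hp5) ((2 * m : ℕ) : ℤ)) : ℤ) =
        (2 * (m : ℤ) - 1) * ((g : ℤ) - 1) +
          (1 + legendreSym p (-4)) * (2 * ((m / 2 : ℕ) : ℤ)) +
          (1 + legendreSym p (-3)) * (2 * ((2 * m / 3 : ℕ) : ℤ)) := by
  obtain ⟨g, hg, hdim⟩ := exists_genus (eichler p hp5)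
  refine ⟨g, ⟨?_, hg⟩, hdim.mono fun m hm => ?_⟩
  · rw [ellipticDefect_eichler, area_eichler] at hg
    have e : ((6 * (g : ℤ) : ℤ) : ℝ) * π =
        ((p - 3 * legendreSym p (-4) - 4 * legendreSym p (-3) : ℤ) : ℝ) * π := by
      push_cast
      linear_combination (-3 / 2) * hg
    exact_mod_cast mul_right_cancel₀ Real.pi_ne_zero e
  · rw [hm, floorSum_eichler, add_assoc]

theorem ncard_ramIndex (e : ℕ) (he : e ≠ 1) :
    (({x : Orb (eichler p hp5) | ramIndex (eichler p hp5) x.out = e}.ncard : ℤ) : ℝ) =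
      ∑ i : Fin 4, ((1 + legendreSym p (trOf i ^ 2 - 4) : ℤ) : ℝ) * if eOf i = e then 1 else 0 := by
  classical
  rw [← sum_elliptic p hp5 fun n => if n = e then (1 : ℝ) else 0, Finset.sum_boole,
    Int.cast_natCast, ← Set.ncard_coe_finset]
  congr 2
  ext x
  simp only [Set.mem_ofPred_eq, Finset.coe_filter, Finite.mem_toFinset]
  exact ⟨fun h => ⟨by rw [h]; exact he, h⟩, fun h => h.2⟩

theorem elliptic_two_three :
    ({x : Orb (eichler p hp5) | ramIndex (eichler p hp5) x.out = 2}.ncard : ℤ) =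
        2 * (1 + legendreSym p (-4)) ∧
      ({x : Orb (eichler p hp5) | ramIndex (eichler p hp5) x.out = 3}.ncard : ℤ) =
        2 * (1 + legendreSym p (-3)) ∧
      ∀ z : ℍ, ramIndex (eichler p hp5) z ∈ ({1, 2, 3} : Finset ℕ) := by
  refine ⟨?_, ?_, fun z => ?_⟩
  · refine Int.cast_injective (α := ℝ) ?_
    rw [ncard_ramIndex p hp5 2 (by norm_num), Fin.sum_univ_four]
    simp [eOf, trOf]
    ring
  · refine Int.cast_injective (α := ℝ) ?_
    rw [ncard_ramIndex p hp5 3 (by norm_num), Fin.sum_univ_four]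
    simp [eOf, trOf]
    ring
  · obtain ⟨k, hk⟩ := MulAction.orbitRel_apply.1 (Quotient.exact
      (Quotient.out_eq (Quotient.mk'' z : Orb (eichler p hp5))))
    rw [show ramIndex (eichler p hp5) z =
      ramIndex (eichler p hp5) (Quotient.mk'' z : Orb (eichler p hp5)).out by
        rw [← hk, ramIndex_smul]]
    by_cases h : ramIndex (eichler p hp5) (Quotient.mk'' z : Orb (eichler p hp5)).out = 1
    · simp [h]
    · obtain ⟨⟨i, c⟩, hy⟩ := exists_levelOrb p hp5 h
      rw [← hy, ramIndex_levelOrb]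
      fin_cases i <;> simp [eOf]

theorem no_elliptic (h : p % 12 = 11) (z : ℍ) : ramIndex (eichler p hp5) z = 1 := by
  obtain ⟨h4, h3⟩ := legendre_eq_neg_one p hp5
  obtain ⟨k, hk⟩ := MulAction.orbitRel_apply.1 (Quotient.exact
    (Quotient.out_eq (Quotient.mk'' z : Orb (eichler p hp5))))
  rw [show ramIndex (eichler p hp5) z =
    ramIndex (eichler p hp5) (Quotient.mk'' z : Orb (eichler p hp5)).out by
      rw [← hk, ramIndex_smul]]
  by_contra hne
  obtain ⟨⟨i, c⟩, -⟩ := exists_levelOrb p hp5 hne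
  haveI : Finite (orderUnits ⧸ eichlerSub p hp5) :=
    Finite.of_injective _ (cosetPt_bijective p hp5).injective
  haveI : Nonempty (fixCosets p hp5 i) := ⟨c⟩
  have hpos : 0 < Nat.card (fixCosets p hp5 i) := Nat.card_pos
  have hc := card_fixCosets p hp5 i
  fin_cases i <;> simp [trOf] at hc hpos ⊢ <;>
    (try rw [h4 (by omega)] at hc) <;> (try rw [h3 (by omega)] at hc) <;> omega

end FA.QuaternionLevel

end
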