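import Fermat.Agent.QuaternionLevel.Group
import Fermat.Agent.QuaternionCurve.Genus

/-!
# The elliptic orbits of level `p`

Above an elliptic point of the units with stabiliser of order `2 e`, `e` prime, the elliptic orbits
of level `p` correspond to the cosets fixed by the whole stabiliser, and these are the cosets fixed
by one element of trace `0` or `1`.
-/

set_option autoImplicit false
set_option linter.unusedSectionVars false
set_option linter.style.haveILetI false

noncomputable section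

open Set Filter Topology Matrix
open UpperHalfPlane hiding I
open scoped MatrixGroups Real
open FA.Horocycle FA.QuaternionHecke FA.QuaternionApprox FA.CocompactForms FA.CocompactDegree
open FA.CocompactGaussBonnet FA.QuaternionCurve

namespace FA.QuaternionLevel

/-- The orders of the elliptic points of the units. -/
def eOf : Fin 4 → ℕ := ![2, 2, 3, 3]

/-- The traces of generators of their stabilisers. -/
def trOf : Fin 4 → ℤ := ![0, 0, 1, 1]

theorem exists_gen (i : Fin 4) : ∃ s : orderUnits, s • ellipticPts i = ellipticPts i ∧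
    trace ((s : SL(2, ℝ)) : Matrix (Fin 2) (Fin 2) ℝ) = trOf i ∧
      (s : SL(2, ℝ)) ≠ 1 ∧ (s : SL(2, ℝ)) ≠ -1 := by
  obtain ⟨e0, e1, e2, e3⟩ := ellipticPts_apply
  have main : ∀ (z : ℍ) (A B C D : ℤ) (T : ℝ), (2 : ℤ) ∣ A - D → (2 : ℤ) ∣ B - D →
      (2 : ℤ) ∣ C - D → A ^ 2 + B ^ 2 - 3 * C ^ 2 - 3 * D ^ 2 = 4 → A ≠ 2 → A ≠ -2 →
      (B : ℝ) = T * hypT z → (D : ℝ) * Real.sqrt 3 = T * hypX z →
      (C : ℝ) * Real.sqrt 3 = -(T * hypY z) →
      ∃ s : orderUnits, s • z = z ∧
        trace ((s : SL(2, ℝ)) : Matrix (Fin 2) (Fin 2) ℝ) = A ∧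
          (s : SL(2, ℝ)) ≠ 1 ∧ (s : SL(2, ℝ)) ≠ -1 := by
    intro z A B C D T hA hB hC hn hA2 hA2' h1 h2 h3
    obtain ⟨γ, hγ, eA, eB, eC, eD⟩ := exists_unit hA hB hC hn
    have htr : trace (γ : Matrix (Fin 2) (Fin 2) ℝ) = A := by
      rw [coe_eq_realQuat hγ, eA]
      simp [realQuat, trace_fin_two]
    refine ⟨⟨γ, hγ⟩, (fixed_iff hγ z).2 ⟨T, by rw [eB, h1], by rw [eD, h2], by rw [eC, h3]⟩,
      htr, fun h => hA2 ?_, fun h => hA2' ?_⟩
    · rw [show γ = 1 from h] at htr
      simp at htr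
      exact Int.cast_injective (α := ℝ) (by push_cast; linarith)
    · rw [show γ = -1 from h] at htr
      simp at htr
      exact Int.cast_injective (α := ℝ) (by push_cast; linarith)
  have hs := sqrt_three_sq
  fin_cases i
  · obtain ⟨s, h1, h2, h3⟩ := main (ellipticPts 0) 0 2 0 0 2 (by norm_num) (by norm_num)
      (by norm_num) (by norm_num) (by norm_num) (by norm_num)
      (by rw [e0, hyp_I.1]; norm_num) (by rw [e0, hyp_I.2.1]; norm_num)
      (by rw [e0, hyp_I.2.2]; norm_num)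
    exact ⟨s, h1, by simpa [trOf] using h2, h3⟩
  · obtain ⟨s, h1, h2, h3⟩ := main (ellipticPts 1) 0 4 0 2 2 (by norm_num) (by norm_num)
      (by norm_num) (by norm_num) (by norm_num) (by norm_num)
      (by rw [e1, hyp_ptTwo.1]; norm_num) (by rw [e1, hyp_ptTwo.2.1]; norm_num)
      (by rw [e1, hyp_ptTwo.2.2]; norm_num)
    exact ⟨s, h1, by simpa [trOf] using h2, h3⟩
  · have h := hyp_ptThree (σ := 1) (by norm_num)
    obtain ⟨s, h1, h2, h3⟩ := main (ellipticPts 2) 1 3 (-1) 1 (Real.sqrt 3) (by norm_num)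
      (by norm_num) (by norm_num) (by norm_num) (by norm_num) (by norm_num)
      (by rw [e2, h.1, ← sq, hs]; norm_num) (by rw [e2, h.2.1]; norm_num)
      (by rw [e2, h.2.2]; norm_num)
    exact ⟨s, h1, by simpa [trOf] using h2, h3⟩
  · have h := hyp_ptThree (σ := -1) (by norm_num)
    obtain ⟨s, h1, h2, h3⟩ := main (ellipticPts 3) 1 3 1 1 (Real.sqrt 3) (by norm_num)
      (by norm_num) (by norm_num) (by norm_num) (by norm_num) (by norm_num)
      (by rw [e3, h.1, ← sq, hs]; norm_num) (by rw [e3, h.2.1]; norm_num)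
      (by rw [e3, h.2.2]; norm_num)
    exact ⟨s, h1, by simpa [trOf] using h2, h3⟩

theorem card_stab_pts (i : Fin 4) :
    Nat.card (MulAction.stabilizer orderUnits (ellipticPts i)) = eOf i * 2 := by
  rw [← ramIndex_mul, ramIndex_pts, trivCard_orderUnits, eOf]

variable (p : ℕ) [hp : Fact p.Prime] (hp5 : 5 ≤ p)

theorem neg_one_smul_coset (c : orderUnits ⧸ eichlerSub p hp5) :
    (⟨-1, neg_one_mem⟩ : orderUnits) • c = c := by
  rw [smul_eq_self_iff, coe_redSL]
  have e : toMod p hp5 ⟨_, (⟨-1, neg_one_mem⟩ : orderUnits).2⟩ = -1 := by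
    rw [← map_one (toMod p hp5), ← map_neg]
    exact congrArg (toMod p hp5) (Subtype.ext (by simp))
  rw [e]
  cases cosetPt p hp5 c <;> simp [IsFix]

/-- An element fixing a coset brings the whole stabiliser. -/
theorem fix_all {i : Fin 4} {c : orderUnits ⧸ eichlerSub p hp5} {t : orderUnits}
    (ht : t • ellipticPts i = ellipticPts i) (ht1 : (t : SL(2, ℝ)) ≠ 1)
    (ht2 : (t : SL(2, ℝ)) ≠ -1) (htc : t • c = c) {u : orderUnits}
    (hu : u • ellipticPts i = ellipticPts i) : u • c = c := by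
  classical
  set S := MulAction.stabilizer orderUnits (ellipticPts i)
  set H : Subgroup orderUnits := MulAction.stabilizer orderUnits c ⊓ S
  haveI : Finite S := Nat.finite_of_card_ne_zero (by
    rw [card_stab_pts]
    fin_cases i <;> simp [eOf])
  haveI : Finite H := Finite.of_injective (Subgroup.inclusion (inf_le_right : H ≤ S))
    (Subgroup.inclusion_injective _)
  have hν : (⟨-1, neg_one_mem⟩ : orderUnits) ∈ H := ⟨neg_one_smul_coset p hp5 c, by
    show (⟨-1, neg_one_mem⟩ : orderUnits) • ellipticPts i = ellipticPts i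
    rw [Subgroup.smul_def]
    exact CocompactHurwitz.eq_one_or_neg_one.2 (.inr rfl) _⟩
  have h2 : 2 ∣ Nat.card H := by
    have h := orderOf_dvd_natCard (⟨_, hν⟩ : H)
    rw [Subgroup.orderOf_mk, Subgroup.orderOf_mk,
      orderOf_eq_prime (p := 2) (by rw [sq]; simp) fun h => CocompactHurwitz.one_ne_neg_one h.symm]
      at h
    exact h
  have h3 : 3 ≤ Nat.card H := by
    haveI := Fintype.ofFinite H
    rw [Nat.card_eq_fintype_card]
    refine le_trans (le_of_eq ?_)
      (Finset.card_le_univ ({1, ⟨_, hν⟩, ⟨t, htc, ht⟩} : Finset H))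
    rw [Finset.card_insert_of_notMem, Finset.card_pair]
    · intro h
      exact ht2 (congrArg (fun x : H => ((x : orderUnits) : SL(2, ℝ))) h).symm
    · simp only [Finset.mem_insert, Finset.mem_singleton, not_or]
      exact ⟨fun h => CocompactHurwitz.one_ne_neg_one
        (congrArg (fun x : H => ((x : orderUnits) : SL(2, ℝ))) h),
        fun h => ht1 (congrArg (fun x : H => ((x : orderUnits) : SL(2, ℝ))) h).symm⟩
  have hle := Subgroup.card_dvd_of_le (inf_le_right : H ≤ S)
  rw [card_stab_pts] at hle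
  have heq : Nat.card H = eOf i * 2 := by
    obtain ⟨k, hk⟩ : ∃ k, Nat.card H = k := ⟨_, rfl⟩
    rw [hk] at h2 h3 hle ⊢
    have hb : k ≤ 6 := le_trans (Nat.le_of_dvd (by fin_cases i <;> simp [eOf]) hle)
      (by fin_cases i <;> simp [eOf])
    fin_cases i <;> simp [eOf] at hle ⊢ <;> interval_cases k <;> omega
  have hHS : H = S := Subgroup.eq_of_le_of_card_ge inf_le_right
    (by rw [heq, card_stab_pts])
  have hmem : u ∈ H := hHS.symm ▸ hu
  exact hmem.1

/-- The cosets fixed by a whole stabiliser. -/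
def fixCosets (i : Fin 4) : Set (orderUnits ⧸ eichlerSub p hp5) :=
  {c | ∀ u : orderUnits, u • ellipticPts i = ellipticPts i → u • c = c}

theorem card_fixCosets (i : Fin 4) :
    (Nat.card (fixCosets p hp5 i) : ℤ) = 1 + legendreSym p (trOf i ^ 2 - 4) := by
  obtain ⟨s, hs, htr, hs1, hs2⟩ := exists_gen i
  have e : fixCosets p hp5 i = {c | s • c = c} := Set.ext fun c =>
    ⟨fun h => h s hs, fun h _ hu => fix_all p hp5 hs hs1 hs2 h hu⟩
  rw [e]
  refine card_fixed_cosets p hp5 s htr ?_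
  have h2 := two_ne_zero_mod p hp5
  have h3 := three_ne_zero_mod p hp5
  fin_cases i <;> simp [trOf]
  · simpa [show (4 : ZMod p) = 2 * 2 by norm_num] using h2
  · simpa [show (4 : ZMod p) = 2 * 2 by norm_num] using h2
  · simpa using h3
  · simpa using h3

theorem neg_one_mem_eichler : (-1 : SL(2, ℝ)) ∈ eichler p hp5 := ⟨⟨-1, neg_one_mem⟩, by
  have h := neg_one_smul_coset p hp5 (QuotientGroup.mk 1)
  rw [MulAction.Quotient.smul_mk, eq_comm, QuotientGroup.eq, smul_eq_mul, inv_one, one_mul,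
    mul_one] at h
  exact h, rfl⟩

/-- The elliptic orbit of a fixed coset. -/
def levelOrb (x : Σ i : Fin 4, fixCosets p hp5 i) : Orb (eichler p hp5) :=
  Quotient.mk'' ((x.2.1.out)⁻¹ • ellipticPts x.1)

theorem levelOrb_injective : Function.Injective (levelOrb p hp5) := by
  rintro ⟨i, c, hc⟩ ⟨j, d, hd⟩ h
  obtain ⟨k, hk⟩ := MulAction.orbitRel_apply.1 (Quotient.exact h)
  set κ : orderUnits := ⟨k, eichler_le p hp5 k.2⟩
  have hk' : κ • d.out⁻¹ • ellipticPts j = c.out⁻¹ • ellipticPts i := hk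
  have hu : (c.out * κ * d.out⁻¹) • ellipticPts j = ellipticPts i := by
    rw [mul_smul, mul_smul, hk', smul_inv_smul]
  obtain rfl : j = i := orbit_pts_injective ⟨_, hu⟩
  have h1 := hd _ hu
  have h2 : (c.out * κ * d.out⁻¹) • d = c := by
    have hd' : (c.out * κ * d.out⁻¹) •
        (QuotientGroup.mk d.out : orderUnits ⧸ eichlerSub p hp5) = c := by
      rw [MulAction.Quotient.smul_mk, smul_eq_mul, inv_mul_cancel_right,
        QuotientGroup.mk_mul_of_mem]
      · exact QuotientGroup.out_eq' c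
      · obtain ⟨γ, hγ, e⟩ := k.2
        rwa [show κ = γ from Subtype.ext e.symm]
    rwa [QuotientGroup.out_eq'] at hd'
  obtain rfl : d = c := h1.symm.trans h2
  rfl

theorem ramIndex_levelOrb (x : Σ i : Fin 4, fixCosets p hp5 i) :
    ramIndex (eichler p hp5) (levelOrb p hp5 x).out = eOf x.1 := by
  obtain ⟨i, c, hc⟩ := x
  set γ := c.out
  set w := γ⁻¹ • ellipticPts i
  have hout : ramIndex (eichler p hp5) (levelOrb p hp5 ⟨i, c, hc⟩).out =
      ramIndex (eichler p hp5) w := by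
    obtain ⟨k, hk⟩ := MulAction.orbitRel_apply.1 (Quotient.exact
      (Quotient.out_eq (levelOrb p hp5 ⟨i, c, hc⟩)))
    rw [← hk, ramIndex_smul]
  rw [hout]
  have hne := neg_one_mem_eichler p hp5
  have hmul := ramIndex_mul (eichler p hp5) w
  rw [CocompactHurwitz.trivCard_eq.1 hne] at hmul
  refine Nat.eq_of_mul_eq_mul_right two_pos ?_
  rw [hmul, ← card_stab_pts i]
  let f : MulAction.stabilizer (eichler p hp5) w →
      MulAction.stabilizer orderUnits (ellipticPts i) := fun t =>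
    ⟨γ * ⟨(t.1 : SL(2, ℝ)), eichler_le p hp5 t.1.2⟩ * γ⁻¹, by
      show (γ * ⟨(t.1 : SL(2, ℝ)), eichler_le p hp5 t.1.2⟩ * γ⁻¹) • ellipticPts i = ellipticPts i
      rw [mul_smul, mul_smul, show (⟨(t.1 : SL(2, ℝ)), eichler_le p hp5 t.1.2⟩ : orderUnits) • w =
        w from t.2, smul_inv_smul]⟩
  refine Nat.card_eq_of_bijective f ⟨fun t t' h => ?_, fun u => ?_⟩
  · have h' := congrArg (fun x => ((x.1 : orderUnits) : SL(2, ℝ))) h
    simp only [f, Subgroup.coe_mul] at h'
    exact Subtype.ext (Subtype.ext (mul_left_cancel (mul_right_cancel h')))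
  · have hu := hc u.1 u.2
    rw [← c.out_eq] at hu
    change u.1 • (QuotientGroup.mk γ : orderUnits ⧸ eichlerSub p hp5) = QuotientGroup.mk γ at hu
    rw [MulAction.Quotient.smul_mk, eq_comm, QuotientGroup.eq, smul_eq_mul, ← mul_assoc] at hu
    refine ⟨⟨⟨((γ⁻¹ * u.1 * γ : orderUnits) : SL(2, ℝ)), _, hu, rfl⟩, ?_⟩, ?_⟩
    · show (γ⁻¹ * u.1 * γ) • w = w
      rw [mul_smul, mul_smul, smul_inv_smul, show u.1 • ellipticPts i = ellipticPts i from u.2]
    · refine Subtype.ext ?_
      show γ * (γ⁻¹ * u.1 * γ) * γ⁻¹ = u.1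
      group

theorem exists_levelOrb {x : Orb (eichler p hp5)} (hx : ramIndex (eichler p hp5) x.out ≠ 1) :
    ∃ y, levelOrb p hp5 y = x := by
  obtain ⟨t, htz, htriv⟩ := (ramIndex_ne_one_iff (eichler p hp5) x.out).1 hx
  have hne := not_or.1 fun h => htriv (CocompactHurwitz.mem_triv_iff.2 h)
  set τ : orderUnits := ⟨t, eichler_le p hp5 t.2⟩
  have hG : x.out ∈ fixSet orderUnits := ⟨τ, htz, fun h => by
    rcases CocompactHurwitz.mem_triv_iff.1 h with h | h
    · exact hne.1 h
    · exact hne.2 h⟩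
  obtain ⟨i, g, hg⟩ := exists_pt hG
  set c : orderUnits ⧸ eichlerSub p hp5 := QuotientGroup.mk g⁻¹
  have hg' : g • ellipticPts i = x.out := hg
  have hu : (g⁻¹ * τ * g) • ellipticPts i = ellipticPts i := by
    rw [mul_smul, mul_smul, hg', show τ • x.out = x.out from htz, ← hg', inv_smul_smul]
  have hτ : τ ∈ eichlerSub p hp5 := by
    obtain ⟨γ, hγ, e⟩ := t.2
    rwa [show τ = γ from Subtype.ext e.symm]
  have huc : (g⁻¹ * τ * g) • c = c := by
    rw [MulAction.Quotient.smul_mk, smul_eq_mul, mul_inv_cancel_right,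
      QuotientGroup.mk_mul_of_mem _ hτ]
  have hne1 : ((g⁻¹ * τ * g : orderUnits) : SL(2, ℝ)) ≠ 1 := fun h => hne.1 (by
    simp only [Subgroup.coe_mul, Subgroup.coe_inv] at h
    calc (t : SL(2, ℝ)) = (g : SL(2, ℝ)) * ((g : SL(2, ℝ))⁻¹ * (τ : SL(2, ℝ)) * g) *
          (g : SL(2, ℝ))⁻¹ := by show (τ : SL(2, ℝ)) = _; group
      _ = 1 := by rw [h, mul_one, mul_inv_cancel])
  have hne2 : ((g⁻¹ * τ * g : orderUnits) : SL(2, ℝ)) ≠ -1 := fun h => hne.2 (by
    simp only [Subgroup.coe_mul, Subgroup.coe_inv] at h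
    calc (t : SL(2, ℝ)) = (g : SL(2, ℝ)) * ((g : SL(2, ℝ))⁻¹ * (τ : SL(2, ℝ)) * g) *
          (g : SL(2, ℝ))⁻¹ := by show (τ : SL(2, ℝ)) = _; group
      _ = -1 := by rw [h, mul_neg, mul_one, neg_mul, mul_inv_cancel])
  refine ⟨⟨i, c, fun u hv => fix_all p hp5 hu hne1 hne2 huc hv⟩, ?_⟩
  show Quotient.mk'' (c.out⁻¹ • ellipticPts i) = x
  rw [← Quotient.out_eq x]
  refine Quotient.sound (MulAction.orbitRel_apply.2 ?_)
  obtain ⟨k, hk⟩ := QuotientGroup.mk_out_eq_mul (eichlerSub p hp5) g⁻¹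
  refine ⟨⟨((k : orderUnits)⁻¹ : orderUnits), _, inv_mem k.2, rfl⟩, ?_⟩
  show ((k : orderUnits)⁻¹) • x.out = c.out⁻¹ • ellipticPts i
  rw [hk, _root_.mul_inv_rev, inv_inv, mul_smul, hg']

theorem finite_sigma : Finite (Σ i : Fin 4, fixCosets p hp5 i) := by
  haveI : Finite (orderUnits ⧸ eichlerSub p hp5) :=
    Finite.of_injective _ (cosetPt_bijective p hp5).injective
  infer_instance

theorem sum_elliptic (f : ℕ → ℝ) :
    ∑ x ∈ (finite_elliptic (eichler p hp5)).toFinset, f (ramIndex (eichler p hp5) x.out) =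
      ∑ i : Fin 4, (1 + legendreSym p (trOf i ^ 2 - 4) : ℤ) * f (eOf i) := by
  classical
  haveI := finite_sigma p hp5
  haveI : Finite (orderUnits ⧸ eichlerSub p hp5) :=
    Finite.of_injective _ (cosetPt_bijective p hp5).injective
  haveI : ∀ i, Fintype (fixCosets p hp5 i) := fun i => Fintype.ofFinite _
  have e : (finite_elliptic (eichler p hp5)).toFinset =
      Finset.univ.map ⟨levelOrb p hp5, levelOrb_injective p hp5⟩ := by
    ext x
    simp only [Finite.mem_toFinset, Set.mem_ofPred_eq, Finset.mem_map, Finset.mem_univ, true_and,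
      Function.Embedding.coeFn_mk]
    refine ⟨exists_levelOrb p hp5, ?_⟩
    rintro ⟨⟨i, c⟩, rfl⟩
    rw [ramIndex_levelOrb]
    fin_cases i <;> simp [eOf]
  rw [e, Finset.sum_map]
  simp only [Function.Embedding.coeFn_mk, ramIndex_levelOrb]
  rw [show (∑ x : Σ i : Fin 4, fixCosets p hp5 i, f (eOf x.1)) =
      ∑ i : Fin 4, ∑ _x : fixCosets p hp5 i, f (eOf i) from
    (Finset.sum_congr rfl fun _ _ => rfl).trans
      (Fintype.sum_sigma fun x : Σ i : Fin 4, fixCosets p hp5 i => f (eOf x.1))]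
  refine Finset.sum_congr rfl fun i _ => ?_
  rw [Finset.sum_const, Finset.card_univ, nsmul_eq_mul, ← Nat.card_eq_fintype_card,
    ← card_fixCosets p hp5 i]
  push_cast
  rfl

end FA.QuaternionLevel

end
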