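import Fermat.Agent.QuaternionApprox.Curves
import Mathlib.NumberTheory.LegendreSymbol.Basic

/-!
# The units of level `p`

The units upper triangular modulo `p` are the stabiliser of a point of the projective line over
`ℤ / p`; the points fixed by a matrix of determinant `1` are the roots of a quadratic equation of
discriminant `t² - 4`, so are `1 + ((t² - 4) / p)` in number.
-/

set_option autoImplicit false
set_option linter.unusedSectionVars false
set_option linter.style.haveILetI false

noncomputable section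

open Matrix
open scoped MatrixGroups
open FA.Horocycle FA.QuaternionHecke FA.QuaternionApprox

namespace FA.QuaternionLevel

variable (p : ℕ) [hp : Fact p.Prime]

/-- The upper triangular matrices. -/
def borel : Subgroup SL(2, ZMod p) where
  carrier := {A | A 1 0 = 0}
  one_mem' := by simp
  mul_mem' {A B} (hA : A 1 0 = 0) (hB : B 1 0 = 0) := by
    show (A * B) 1 0 = 0
    simp [Matrix.mul_apply, Fin.sum_univ_two, hA, hB]
  inv_mem' {A} (hA : A 1 0 = 0) := by
    show A⁻¹ 1 0 = 0
    simp [adjugate_fin_two, hA]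

/-- The point of the projective line given by the first column. -/
def colPt (A : SL(2, ZMod p)) : Option (ZMod p) :=
  if A 1 0 = 0 then none else some (A 0 0 / A 1 0)

theorem colPt_eq_iff (A B : SL(2, ZMod p)) :
    colPt p A = colPt p B ↔ A⁻¹ * B ∈ borel p := by
  have e : (A⁻¹ * B) 1 0 = -(A 1 0) * B 0 0 + A 0 0 * B 1 0 := by
    simp [adjugate_fin_two, Matrix.mul_apply, Fin.sum_univ_two]
  show _ ↔ (A⁻¹ * B) 1 0 = 0
  rw [e]
  have hA : A 0 0 * A 1 1 - A 0 1 * A 1 0 = 1 := (Matrix.det_fin_two _).symm.trans A.prop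
  have hB : B 0 0 * B 1 1 - B 0 1 * B 1 0 = 1 := (Matrix.det_fin_two _).symm.trans B.prop
  by_cases ha : A 1 0 = 0 <;> by_cases hb : B 1 0 = 0
  · simp [colPt, ha, hb]
  · simp [colPt, ha, hb]
    intro h
    simp [h, ha] at hA
  · simp [colPt, ha, hb]
    intro h
    simp [h, hb] at hB
  · simp only [colPt, ha, hb, if_false, Option.some.injEq]
    rw [div_eq_div_iff ha hb]
    constructor <;> intro h <;> linear_combination h

/-- The cosets are the points. -/
def borelEquiv : SL(2, ZMod p) ⧸ borel p ≃ Option (ZMod p) :=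
  Equiv.ofBijective
    (Quotient.lift (colPt p) fun A B h =>
      (colPt_eq_iff p A B).2 (QuotientGroup.leftRel_apply.1 h))
    ⟨fun x y => Quotient.inductionOn₂ x y fun A B h =>
        Quotient.sound (QuotientGroup.leftRel_apply.2 ((colPt_eq_iff p A B).1 h)), fun o => by
      cases o with
      | none => exact ⟨QuotientGroup.mk 1, show colPt p 1 = none by simp [colPt]⟩
      | some x =>
        refine ⟨QuotientGroup.mk ⟨!![x, -1; 1, 0], by simp [det_fin_two]⟩, ?_⟩
        show colPt p _ = some x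
        simp [colPt]⟩

theorem index_borel : (borel p).index = p + 1 := by
  rw [Subgroup.index, Nat.card_congr (borelEquiv p), Nat.card_eq_fintype_card,
    Fintype.card_option, ZMod.card]

/-- A point fixed by `M`. -/
def IsFix (M : Matrix (Fin 2) (Fin 2) (ZMod p)) : Option (ZMod p) → Prop
  | none => M 1 0 = 0
  | some x => M 1 0 * x ^ 2 + (M 1 1 - M 0 0) * x - M 0 1 = 0

theorem conj_mem_borel_iff (M A : SL(2, ZMod p)) :
    A⁻¹ * M * A ∈ borel p ↔ IsFix p M (colPt p A) := by
  have e : (A⁻¹ * M * A) 1 0 = M 1 0 * A 0 0 ^ 2 + (M 1 1 - M 0 0) * (A 0 0 * A 1 0) -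
      M 0 1 * A 1 0 ^ 2 := by
    simp [adjugate_fin_two, Matrix.mul_apply, Matrix.vecMul, dotProduct, Fin.sum_univ_two]
    ring
  show (A⁻¹ * M * A) 1 0 = 0 ↔ _
  rw [e]
  by_cases hc : A 1 0 = 0
  · have hA : A 0 0 * A 1 1 - A 0 1 * A 1 0 = 1 := (Matrix.det_fin_two _).symm.trans A.prop
    have ha : A 0 0 ≠ 0 := fun h => by simp [h, hc] at hA
    simp [colPt, hc, IsFix, ha]
  · simp only [colPt, hc, if_false, IsFix]
    constructor <;> intro h
    · refine mul_left_cancel₀ (pow_ne_zero 2 hc) ?_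
      field_simp
      linear_combination h
    · field_simp at h
      linear_combination h

/-- **The number of fixed points.** -/
theorem card_isFix (hp2 : p ≠ 2) (M : SL(2, ZMod p)) {D : ℤ}
    (hD : (M 0 0 + M 1 1) ^ 2 - 4 = (D : ZMod p)) (hD0 : (D : ZMod p) ≠ 0) :
    (Nat.card {o // IsFix p M o} : ℤ) = 1 + legendreSym p D := by
  classical
  have h2 : (2 : ZMod p) ≠ 0 := fun h => hp2 (by
    have h' : ((2 : ℕ) : ZMod p) = 0 := by exact_mod_cast h
    exact (Nat.prime_dvd_prime_iff_eq hp.out Nat.prime_two).1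
      ((ZMod.natCast_eq_zero_iff 2 p).1 h'))
  have hdet : M 0 0 * M 1 1 - M 0 1 * M 1 0 = 1 := (Matrix.det_fin_two _).symm.trans M.prop
  have hdisc : (M 1 1 - M 0 0) ^ 2 + 4 * M 1 0 * M 0 1 = (D : ZMod p) := by
    linear_combination hD - 4 * hdet
  have hsqrts := legendreSym.card_sqrts p hp2 D
  rw [add_comm (1 : ℤ)]
  by_cases hc : M 1 0 = 0
  · rw [hc, mul_zero, zero_mul, add_zero] at hdisc
    have hne : M 1 1 - M 0 0 ≠ 0 := fun h => hD0 (by rw [← hdisc, h]; ring)
    rw [(legendreSym.eq_one_iff p hD0).2 ⟨M 1 1 - M 0 0, by rw [← hdisc]; ring⟩]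
    have hset : {o | IsFix p M o} = {none, some (M 0 1 / (M 1 1 - M 0 0))} := by
      ext o
      cases o with
      | none => simp [IsFix, hc]
      | some x => simp [IsFix, hc, sub_eq_zero, eq_div_iff hne, mul_comm x]
    rw [show Nat.card {o // IsFix p M o} = ({o | IsFix p M o} : Set _).ncard from
      Nat.card_coe_set_eq _, hset, Set.ncard_pair (by simp)]
    norm_num
  · rw [← hsqrts, Nat.cast_inj]
    have h2c : 2 * M 1 0 ≠ 0 := mul_ne_zero h2 hc
    rw [← Nat.card_eq_finsetCard]
    refine (Nat.card_eq_of_bijective (fun y : {x : ZMod p | x ^ 2 = (D : ZMod p)}.toFinset =>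
      (⟨some (((y : ZMod p) - (M 1 1 - M 0 0)) / (2 * M 1 0)), ?_⟩ : {o // IsFix p M o}))
      ⟨fun y z h => ?_, fun o => ?_⟩).symm
    · have hy : (y : ZMod p) ^ 2 = D := by simpa using y.2
      show M 1 0 * _ ^ 2 + (M 1 1 - M 0 0) * _ - M 0 1 = 0
      field_simp
      linear_combination hy - hdisc
    · have h' := Option.some.inj (congrArg Subtype.val h)
      rw [div_left_inj' h2c, sub_left_inj] at h'
      exact Subtype.ext h'
    · obtain ⟨o, ho⟩ := o
      cases o with
      | none => exact absurd ho hc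
      | some x =>
        have ho' : M 1 0 * x ^ 2 + (M 1 1 - M 0 0) * x - M 0 1 = 0 := ho
        refine ⟨⟨2 * M 1 0 * x + (M 1 1 - M 0 0), ?_⟩, Subtype.ext ?_⟩
        · have e : (2 * M 1 0 * x + (M 1 1 - M 0 0)) ^ 2 = (D : ZMod p) := by
            linear_combination hdisc + 4 * M 1 0 * ho'
          simpa using e
        · show some _ = some x
          rw [add_sub_cancel_right, mul_div_cancel_left₀ _ h2c]

variable (hp5 : 5 ≤ p)

/-- The units upper triangular modulo `p`, inside the units. -/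
def eichlerSub : Subgroup orderUnits := (borel p).comap (redSL p hp5)

/-- **The units of level `p`.** -/
def eichler : Subgroup SL(2, ℝ) := (eichlerSub p hp5).map orderUnits.subtype

theorem eichler_le : eichler p hp5 ≤ orderUnits := Subgroup.map_subtype_le _

theorem subgroupOf_eichler : (eichler p hp5).subgroupOf orderUnits = eichlerSub p hp5 :=
  Subgroup.comap_map_eq_self_of_injective Subtype.coe_injective _

theorem mem_eichler {g : SL(2, ℝ)} :
    g ∈ eichler p hp5 ↔ ∃ h : g ∈ orderUnits, redSL p hp5 ⟨g, h⟩ 1 0 = 0 := by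
  constructor
  · rintro ⟨γ, hγ, rfl⟩
    exact ⟨γ.2, hγ⟩
  · rintro ⟨h, hb⟩
    exact ⟨⟨g, h⟩, hb, rfl⟩

theorem relIndex_eichler : (eichler p hp5).relIndex orderUnits = p + 1 := by
  rw [Subgroup.relIndex, subgroupOf_eichler, eichlerSub,
    Subgroup.index_comap_of_surjective _ (redSL_surjective p hp5), index_borel]

/-- The cosets of the units of level `p` are the points. -/
def cosetPt : orderUnits ⧸ eichlerSub p hp5 → Option (ZMod p) :=
  Quotient.lift (fun γ => colPt p (redSL p hp5 γ)) fun γ δ h => (colPt_eq_iff p _ _).2 (by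
    rw [← map_inv, ← map_mul]
    exact QuotientGroup.leftRel_apply.1 h)

theorem cosetPt_bijective : Function.Bijective (cosetPt p hp5) := by
  refine ⟨fun x y h => ?_, fun o => ?_⟩
  · obtain ⟨γ, rfl⟩ := QuotientGroup.mk_surjective x
    obtain ⟨δ, rfl⟩ := QuotientGroup.mk_surjective y
    refine (QuotientGroup.eq (s := eichlerSub p hp5)).2 ?_
    show γ⁻¹ * δ ∈ (borel p).comap (redSL p hp5)
    rw [Subgroup.mem_comap, map_mul, map_inv]
    exact (colPt_eq_iff p _ _).1 h
  · obtain ⟨x, hx⟩ := (borelEquiv p).surjective o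
    obtain ⟨A, rfl⟩ := QuotientGroup.mk_surjective x
    obtain ⟨γ, rfl⟩ := redSL_surjective p hp5 A
    exact ⟨QuotientGroup.mk γ, hx⟩

theorem smul_eq_self_iff (t : orderUnits) (c : orderUnits ⧸ eichlerSub p hp5) :
    t • c = c ↔ IsFix p (redSL p hp5 t) (cosetPt p hp5 c) := by
  obtain ⟨γ, rfl⟩ := QuotientGroup.mk_surjective c
  rw [MulAction.Quotient.smul_mk, eq_comm, QuotientGroup.eq, smul_eq_mul, ← mul_assoc]
  show _ ∈ (borel p).comap (redSL p hp5) ↔ _
  rw [Subgroup.mem_comap, map_mul, map_mul, map_inv, conj_mem_borel_iff]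
  rfl

theorem card_fixed_cosets (t : orderUnits) {T : ℤ}
    (hT : trace ((t : SL(2, ℝ)) : Matrix (Fin 2) (Fin 2) ℝ) = T)
    (h0 : ((T ^ 2 - 4 : ℤ) : ZMod p) ≠ 0) :
    (Nat.card {c : orderUnits ⧸ eichlerSub p hp5 // t • c = c} : ℤ) =
      1 + legendreSym p (T ^ 2 - 4) := by
  have h := trace_toMod p hp5 ⟨_, t.2⟩ hT
  rw [trace_fin_two] at h
  rw [Nat.card_congr ((Equiv.ofBijective _ (cosetPt_bijective p hp5)).subtypeEquiv
    (q := IsFix p (redSL p hp5 t)) fun c => smul_eq_self_iff p hp5 t c)]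
  refine card_isFix p (by omega) _ ?_ h0
  rw [coe_redSL, h]
  push_cast
  ring

instance discreteTopology_eichler : DiscreteTopology (eichler p hp5) :=
  DiscreteTopology.of_continuous_injective (f := Subgroup.inclusion (eichler_le p hp5))
    (continuous_subtype_val.subtype_mk _) (Subgroup.inclusion_injective _)

instance compactSpace_eichler : CompactSpace (SL(2, ℝ) ⧸ eichler p hp5) :=
  CocompactHurwitz.compactSpace_of_relIndex (H := orderUnits) (by
    rw [relIndex_eichler p hp5]
    omega)

end FA.QuaternionLevel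

end
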