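import Fermat.Agent.QuaternionLevel.Genus
import Fermat.Agent.Dim.Gamma0

/-!
# The genus of level `p` and the newforms of level `6 p`

The genus is `dim S₂(6 p) - 2 dim S₂(3 p) - 2 dim S₂(2 p) + 4 dim S₂(p)`, the dimension of the part
of `S₂(Γ₀(6 p))` that is new at `2` and `3`.
-/

set_option autoImplicit false
set_option linter.unusedSectionVars false
set_option linter.style.haveILetI false

noncomputable section

open scoped MatrixGroups
open ModularCurve

namespace FA.QuaternionLevel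

theorem nu_mul {m n : ℕ} (h : m.Coprime n) :
    nuTwo (m * n) = nuTwo m * nuTwo n ∧ nuThree (m * n) = nuThree m * nuThree n := by
  let e := ZMod.chineseRemainder h
  constructor
  · rw [nuTwo, nuTwo, nuTwo, ← Nat.card_prod]
    refine Nat.card_congr ((e.toEquiv.subtypeEquiv (q := fun y : ZMod m × ZMod n =>
      y.1 ^ 2 + 1 = 0 ∧ y.2 ^ 2 + 1 = 0) fun x => ?_).trans (Equiv.subtypeProdEquivProd
        (p := fun a : ZMod m => a ^ 2 + 1 = 0) (q := fun b : ZMod n => b ^ 2 + 1 = 0)))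
    rw [← e.injective.eq_iff, map_zero, Prod.ext_iff]
    simp
  · rw [nuThree, nuThree, nuThree, ← Nat.card_prod]
    refine Nat.card_congr ((e.toEquiv.subtypeEquiv (q := fun y : ZMod m × ZMod n =>
      y.1 ^ 2 + y.1 + 1 = 0 ∧ y.2 ^ 2 + y.2 + 1 = 0) fun x => ?_).trans
        (Equiv.subtypeProdEquivProd (p := fun a : ZMod m => a ^ 2 + a + 1 = 0)
          (q := fun b : ZMod n => b ^ 2 + b + 1 = 0)))
    rw [← e.injective.eq_iff, map_zero, Prod.ext_iff]
    simp

theorem nu_two_three :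
    nuTwo 2 = 1 ∧ nuTwo 3 = 0 ∧ nuThree 2 = 0 ∧ nuThree 3 = 1 := by
  simp only [nuTwo, nuThree, Nat.card_eq_fintype_card]
  decide

variable (p : ℕ) [hp : Fact p.Prime]

theorem nuTwo_eq (hp5 : 5 ≤ p) : (nuTwo p : ℤ) = 1 + legendreSym p (-4) := by
  rw [legendre_neg_four p hp5, add_comm, ← legendreSym.card_sqrts p (by omega) (-1), Nat.cast_inj,
    nuTwo, ← Nat.card_eq_finsetCard]
  refine Nat.card_congr (Equiv.subtypeEquivRight fun x => ?_)
  simp [add_eq_zero_iff_eq_neg]

theorem nuThree_eq (hp5 : 5 ≤ p) : (nuThree p : ℤ) = 1 + legendreSym p (-3) := by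
  have h2 := QuaternionApprox.two_ne_zero_mod p hp5
  rw [add_comm, ← legendreSym.card_sqrts p (by omega) (-3), Nat.cast_inj, nuThree,
    ← Nat.card_eq_finsetCard]
  refine Nat.card_congr
    { toFun := fun x => ⟨2 * x.1 + 1, ?_⟩
      invFun := fun η => ⟨(η.1 - 1) / 2, ?_⟩
      left_inv := fun x => Subtype.ext (by field_simp; ring)
      right_inv := fun η => Subtype.ext (by field_simp; ring) }
  · have e : (2 * x.1 + 1) ^ 2 = (((-3 : ℤ)) : ZMod p) := by
      push_cast
      linear_combination 4 * x.2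
    simpa using e
  · have hη : (η : ZMod p) ^ 2 = ((-3 : ℤ) : ZMod p) := by simpa using η.2
    push_cast at hη
    field_simp
    linear_combination hη

theorem cuspCount_squarefree {N : ℕ} (h : Squarefree N) :
    cuspCount N = N.divisors.card := by
  rw [cuspCount, Finset.card_eq_sum_ones]
  refine Finset.sum_congr rfl fun d hd => ?_
  have hc : Nat.Coprime d (N / d) := Nat.coprime_of_squarefree_mul
    (by rwa [Nat.mul_div_cancel' (Nat.dvd_of_mem_divisors hd)])
  rw [hc.gcd_eq_one, Nat.totient_one]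

/-- **The genus counts newforms.** -/
theorem genus_eq_newforms (hp5 : 5 ≤ p) {g : ℕ}
    (hg : 6 * (g : ℤ) = p - 3 * legendreSym p (-4) - 4 * legendreSym p (-3)) :
    haveI : NeZero p := ⟨hp.out.ne_zero⟩
    (g : ℤ) = Module.finrank ℂ (CuspForm (CongruenceSubgroup.Gamma0 (6 * p)) 2) -
      2 * (Module.finrank ℂ (CuspForm (CongruenceSubgroup.Gamma0 (3 * p)) 2) : ℤ) -
      2 * (Module.finrank ℂ (CuspForm (CongruenceSubgroup.Gamma0 (2 * p)) 2) : ℤ) +
      4 * (Module.finrank ℂ (CuspForm (CongruenceSubgroup.Gamma0 p) 2) : ℤ) := by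
  haveI : NeZero p := ⟨hp.out.ne_zero⟩
  have c2 : Nat.Coprime 2 p := (Nat.coprime_primes Nat.prime_two hp.out).2 (by omega)
  have c3 : Nat.Coprime 3 p := (Nat.coprime_primes Nat.prime_three hp.out).2 (by omega)
  have c6 : Nat.Coprime 6 p := Nat.Coprime.mul_left c2 c3
  obtain ⟨n2, n3, m2, m3⟩ := nu_two_three
  obtain ⟨a2, b2⟩ := nu_mul c2
  obtain ⟨a3, b3⟩ := nu_mul c3
  obtain ⟨a6, b6⟩ := nu_mul c6
  obtain ⟨a23, b23⟩ := nu_mul (show Nat.Coprime 2 3 by norm_num)
  have hψ : ∀ q : ℕ, q.Prime → dedekindPsi q = q + 1 := fun q hq => by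
    have h := FA.Dim.dedekindPsi_prime_pow hq 0
    simpa using h
  have e6 : dedekindPsi (6 * p) = 12 * (p + 1) := by
    rw [show (6 : ℕ) = 2 * 3 by norm_num, FA.Dim.dedekindPsi_mul c6,
      FA.Dim.dedekindPsi_mul (by norm_num : Nat.Coprime 2 3), hψ p hp.out, hψ 2 Nat.prime_two,
      hψ 3 Nat.prime_three]
  have cu : ∀ k : ℕ, Squarefree k → k.Coprime p →
      cuspCount (k * p) = 2 * k.divisors.card := fun k hk hkp => by
    rw [cuspCount_squarefree (Nat.squarefree_mul_iff.2 ⟨hkp, hk, hp.out.squarefree⟩),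
      hkp.card_divisors_mul, hp.out.divisors, Finset.card_pair hp.out.one_lt.ne, mul_comm]
  refine Int.cast_injective (α := ℚ) ?_
  push_cast
  rw [FA.Dim.finrank_S2, FA.Dim.finrank_S2, FA.Dim.finrank_S2, FA.Dim.finrank_S2]
  simp only [genusFormula]
  rw [e6, FA.Dim.dedekindPsi_mul c3, FA.Dim.dedekindPsi_mul c2, hψ p hp.out, hψ 2 Nat.prime_two,
    hψ 3 Nat.prime_three, cu 6 (Nat.squarefree_mul_iff.2 ⟨by norm_num, Nat.prime_two.squarefree,
      Nat.prime_three.squarefree⟩) c6, cu 3 Nat.prime_three.squarefree c3,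
    cu 2 Nat.prime_two.squarefree c2,
    cuspCount_squarefree hp.out.squarefree, hp.out.divisors, Finset.card_pair hp.out.one_lt.ne,
    a2, a3, a6, b2, b3, b6, show nuTwo 6 = nuTwo 2 * nuTwo 3 from a23,
    show nuThree 6 = nuThree 2 * nuThree 3 from b23, n2, n3, m2, m3,
    show (Nat.divisors 6).card = 4 by decide, show (Nat.divisors 3).card = 2 by decide,
    show (Nat.divisors 2).card = 2 by decide]
  have e2 : ((nuTwo p : ℕ) : ℚ) = 1 + (legendreSym p (-4) : ℚ) := by
    exact_mod_cast nuTwo_eq p hp5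
  have e3 : ((nuThree p : ℕ) : ℚ) = 1 + (legendreSym p (-3) : ℚ) := by
    exact_mod_cast nuThree_eq p hp5
  have hg' : 6 * (g : ℚ) = p - 3 * (legendreSym p (-4) : ℚ) - 4 * (legendreSym p (-3) : ℚ) := by
    exact_mod_cast hg
  push_cast
  linear_combination (1 / 6 : ℚ) * hg' + (1 / 2 : ℚ) * e2 + (2 / 3 : ℚ) * e3

end FA.QuaternionLevel

end
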